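/-
P-ES1 / ES1-A, row ES1A-KUM (helper95): GENERIC form (arbitrary model `X = (Γ, F, R, j)`) of
helper94's Kummer assemblies `Fermat.Agent.H94.EsA.Assembly{Basic,Ex,Ker,Map}`.
Mechanical port: `Gamma0 N ↦ X.Γ`, `FC N ↦ X.F`; the facts about `Γ₀(N)` used in the proofs
are replaced by `-1 ∈ X.Γ` (field `neg_one_mem` of `Model.IsModular`).
The group-free lemmas of the old closure are used verbatim from `Fermat.Agent.H94.EsA`.
-/
import Fermat.Agent.H95.ES1A.AssemblyEx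

set_option autoImplicit false

noncomputable section

open UpperHalfPlane AlgebraicCurve Function
open scoped MatrixGroups Manifold Topology

namespace Fermat.Agent.H95.ES1A

open Fermat.Agent.H23.ES1A
open Fermat.Agent.H44 (LaurentRel)
open Fermat.Agent.H94.EsA (IsHol HasModerateGrowth rep_ne_zero ne_zero_of_rep
  abs_le_two_iff_sq_le abs_lt_two_iff_sq_lt abs_eq_two_iff_sq_eq growth_root mdiff_comp_smul
  comp_smul_ne_zero laurentRel_pow hasModerateGrowth_root hasModerateGrowth_pow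
  trace_conj_T_zpow)
open Fermat.Agent.H23.EsA (cuspOrd GrowthAtInfty MultiplierCharStatement PowOrderStatement
  CuspRootStatement EllipticFixStatement ParabolicFormStatement CuspPowStatement
  FixTraceStatement)

/-- **A-KER** from its parts. -/
theorem kummerKernel_of_parts (X : Model) (hMF : ModularFunctionStatement X)
    (hGROW : InvariantGrowthStatement X) : KummerKernelStatement X := by
  intro m hm f _ hchar
  obtain ⟨g, hgmd, hgrel, hgχ⟩ := hchar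
  obtain ⟨-, hgrow⟩ := hGROW f (g ^ m) hgrel
  have hginv : ∀ (γ : ↥X.Γ) (z : ℍ), g ((γ : SL(2, ℤ)) • z) = g z := by
    intro γ z
    have := hgχ γ z
    simpa using this
  have hggrow : HasModerateGrowth g :=
    hasModerateGrowth_root hm (fun z => by simp) hgrow
  obtain ⟨x, hx⟩ := hMF g hgmd hginv hggrow
  refine ⟨x, Subtype.ext ?_⟩
  have h1 := laurentRel_pow hx m
  have h2 := h1.unique_right hgrel
  rw [← h2]
  simp

/-- **A-SURJ** from its parts. -/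
theorem kummerSurj_of_parts (X : Model)
    (hEIS : TwistedFunctionStatement X)
    (hMF : ModularFunctionStatement X)
    (hPL : PlacesStatement X)
    (hMULT : MultiplierCharStatement)
    (hPOW : PowOrderStatement)
    (hCPOW : CuspPowStatement)
    (hFIX : FixTraceStatement) :
    KummerSurjStatement X := by
  intro m hm χ hχ
  obtain ⟨hχpe, hχm⟩ := hχ
  have hmZ : (0 : ℤ) < (m : ℤ) := by exact_mod_cast hm
  have hχpow : ∀ γ, (((χ γ : ℂˣ) : ℂ)) ^ m = 1 := by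
    intro γ
    have := congrArg (fun ψ : Char0 X => ((ψ γ : ℂˣ) : ℂ)) hχm
    simpa using this
  have hnorm : ∀ γ, ‖((χ γ : ℂˣ) : ℂ)‖ = 1 := by
    intro γ
    have h1 : ‖((χ γ : ℂˣ) : ℂ)‖ ^ m = 1 := by rw [← norm_pow, hχpow, norm_one]
    exact (pow_eq_one_iff_of_nonneg (norm_nonneg _) hm.ne').mp h1
  have hinf : ∀ γ : ↥X.Γ,
      ((γ : SL(2, ℤ)) : Matrix (Fin 2) (Fin 2) ℤ) 1 0 = 0 → χ γ = 1 := by
    intro γ hc
    apply hχpe
    rw [trZ_eq]
    have hdet := Matrix.SpecialLinearGroup.det_coe (γ : SL(2, ℤ))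
    rw [Matrix.det_fin_two, hc, mul_zero, sub_zero] at hdet
    have h1 : ((γ : SL(2, ℤ)) 0 0 - (γ : SL(2, ℤ)) 1 1) ^ 2 ≥ 0 := sq_nonneg _
    have h2 : ((γ : SL(2, ℤ)) 0 0 + (γ : SL(2, ℤ)) 1 1) ^ 2
        = ((γ : SL(2, ℤ)) 0 0 - (γ : SL(2, ℤ)) 1 1) ^ 2 + 4 := by
      have : ((γ : SL(2, ℤ)) 0 0 + (γ : SL(2, ℤ)) 1 1) ^ 2
        = ((γ : SL(2, ℤ)) 0 0 - (γ : SL(2, ℤ)) 1 1) ^ 2
          + 4 * ((γ : SL(2, ℤ)) 0 0 * (γ : SL(2, ℤ)) 1 1) := by ring
      rw [this, hdet]; ring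
    -- `a d = 1` forces `a = d = ± 1`
    have h3 : (γ : SL(2, ℤ)) 0 0 = (γ : SL(2, ℤ)) 1 1 := by
      rcases Int.eq_one_or_neg_one_of_mul_eq_one' hdet with ⟨ha, hd⟩ | ⟨ha, hd⟩ <;> rw [ha, hd]
    rw [h2, h3, sub_self]
    norm_num
  obtain ⟨G, hGmd, hG0, hGgrow, hGχ⟩ := hEIS χ hnorm hinf
  -- the `m`-th power is a modular function
  have hpmd : MDiff (G ^ m) := hGmd.pow m
  have hpinv : ∀ (γ : ↥X.Γ) (z : ℍ),
      (G ^ m) ((γ : SL(2, ℤ)) • z) = (G ^ m) z := by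
    intro γ z
    rw [Pi.pow_apply, Pi.pow_apply, hGχ, mul_pow, hχpow, one_mul]
  obtain ⟨x, hx⟩ := hMF (G ^ m) hpmd hpinv (hasModerateGrowth_pow hGgrow m)
  have hp0 : G ^ m ≠ 0 := by
    obtain ⟨z, hz⟩ : ∃ z, G z ≠ 0 := by
      by_contra hcon
      push Not at hcon
      exact hG0 (funext hcon)
    intro h0
    have := congrFun h0 z
    rw [Pi.pow_apply, Pi.zero_apply] at this
    exact hz (pow_eq_zero_iff hm.ne' |>.mp this)
  have hxc0 : ((x : ↥X.F) : LaurentSeries ℂ) ≠ 0 := ne_zero_of_rep hx hp0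
  have hx0 : x ≠ 0 := by
    rintro rfl
    exact hxc0 rfl
  refine ⟨x, ⟨hx0, ?_⟩, G, hGmd, hx, hGχ⟩
  intro P
  rcases hPL.2.2 P with ⟨z₀, s, ⟨⟨hs, hv, -⟩, hstrong⟩⟩ | ⟨δ, w, hw, hwk, hcusp⟩
  · -- point place
    obtain ⟨n, hn, hnm⟩ := hPOW m G hGmd hG0 z₀
    have h1 := hv x (G ^ m) hx0 hx
    rw [hnm] at h1
    have h2 : ((m * n : ℕ) : ℤ) = (s : ℤ) * P.ord x := by exact_mod_cast h1
    have h3 : (s : ℤ) ∣ (n : ℤ) := by
      apply hstrong
      intro γ hγ hfix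
      have hχγ : χ ⟨γ, hγ⟩ = 1 := by
        apply hχpe
        rw [trZ_eq]
        exact (abs_le_two_iff_sq_le _).mp (hFIX γ z₀ hfix)
      have h4 := hMULT G hGmd γ z₀ hfix 1 (fun z => by
        have := hGχ ⟨γ, hγ⟩ z
        rw [hχγ] at this
        simpa using this) n hn
      rw [one_mul] at h4
      rw [zpow_natCast]
      exact h4
    obtain ⟨n', hn'⟩ := h3
    have hsZ : (s : ℤ) ≠ 0 := by exact_mod_cast hs.ne'
    refine ⟨n', ?_⟩
    have h5 : (s : ℤ) * P.ord x = (s : ℤ) * ((m : ℤ) * n') := by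
      rw [← h2]
      push_cast
      rw [hn']
      ring
    exact mul_left_cancel₀ hsZ h5
  · -- cusp place
    have hmemw : δ * ModularGroup.T ^ (w : ℤ) * δ⁻¹ ∈ X.Γ :=
      (hwk w).mpr dvd_rfl
    have hχw : χ ⟨δ * ModularGroup.T ^ (w : ℤ) * δ⁻¹, hmemw⟩ = 1 := by
      apply hχpe
      rw [trZ]
      show ((δ * ModularGroup.T ^ (w : ℤ) * δ⁻¹ : SL(2, ℤ)) : Matrix (Fin 2) (Fin 2) ℤ).trace ^ 2
        ≤ 4
      rw [trace_conj_T_zpow]
      norm_num
    have hHmd : MDiff (fun z : ℍ => G (δ • z)) := mdiff_comp_smul hGmd δ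
    have hH0 : (fun z : ℍ => G (δ • z)) ≠ 0 := comp_smul_ne_zero hG0 δ
    have hHgrow : GrowthAtInfty (fun z : ℍ => G (δ • z)) := by
      obtain ⟨M, C, Y, -, hb⟩ := hGgrow δ
      exact ⟨M, C, Y, hb⟩
    have hHT : ∀ z : ℍ, (fun z : ℍ => G (δ • z)) (ModularGroup.T ^ w • z)
        = (fun z : ℍ => G (δ • z)) z := by
      intro z
      have h1 := hGχ ⟨δ * ModularGroup.T ^ (w : ℤ) * δ⁻¹, hmemw⟩ (δ • z)
      have h2 : (δ * ModularGroup.T ^ (w : ℤ) * δ⁻¹) • (δ • z)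
          = δ • (ModularGroup.T ^ w • z) := by
        rw [← mul_smul, inv_mul_cancel_right, mul_smul, zpow_natCast]
      rw [hχw] at h1
      simp only [Units.val_one, one_mul] at h1
      show G (δ • (ModularGroup.T ^ w • z)) = G (δ • z)
      rw [← h2]
      exact h1
    obtain ⟨n, -, hn⟩ := hCPOW m w hw (fun z : ℍ => G (δ • z)) hHmd hH0 hHT hHgrow
    have hHpow : (fun z : ℍ => G (δ • z)) ^ m = fun z => (G ^ m) (δ • z) := by
      funext z
      simp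
    rw [hHpow, hcusp x (G ^ m) hx0 hx] at hn
    refine ⟨n, ?_⟩
    exact_mod_cast hn

end Fermat.Agent.H95.ES1A

end
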