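/-
P-ES1 / ES1-A, row ES1A-KUM (helper95): GENERIC form (arbitrary model `X = (Γ, F, R, j)`) of
helper94's Kummer assemblies `Fermat.Agent.H94.EsA.Assembly{Basic,Ex,Ker,Map}`.
Mechanical port: `Gamma0 N ↦ X.Γ`, `FC N ↦ X.F`; the facts about `Γ₀(N)` used in the proofs
are replaced by `-1 ∈ X.Γ` (field `neg_one_mem` of `Model.IsModular`).
The group-free lemmas of the old closure are used verbatim from `Fermat.Agent.H94.EsA`.
-/
import Fermat.Agent.H95.ES1A.AssemblyKer

set_option autoImplicit false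

noncomputable section

open UpperHalfPlane AlgebraicCurve Function
open scoped MatrixGroups Manifold Topology

namespace Fermat.Agent.H95.ES1A

open Fermat.Agent.H23.ES1A
open Fermat.Agent.H44 (LaurentRel)
open Fermat.Agent.H94.EsA (IsHol HasModerateGrowth rep_ne_zero ne_zero_of_rep
  abs_le_two_iff_sq_le abs_lt_two_iff_sq_lt abs_eq_two_iff_sq_eq growth_root mdiff_comp_smul
  comp_smul_ne_zero laurentRel_pow hasModerateGrowth_root hasModerateGrowth_pow
  trace_conj_T_zpow)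
open Fermat.Agent.H23.EsA (cuspOrd GrowthAtInfty MultiplierCharStatement PowOrderStatement
  CuspRootStatement EllipticFixStatement ParabolicFormStatement CuspPowStatement
  FixTraceStatement)

/-- A-FRAC from the inputs of a modular model. -/
theorem fracHol_of_core (X : Model) (hX : X.IsModular) : FracHolStatement X := by
  intro f
  obtain ⟨r, s, hr, hs, hs0, hfs⟩ := hX.frac f
  obtain ⟨hr', hrep, -⟩ := hX.rep r hr
  obtain ⟨hs', hsep, -⟩ := hX.rep s hs
  exact ⟨r, s, hs0, ⟨hr', hrep⟩, ⟨hs', hsep⟩, hfs⟩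

/-- A-HOL from A-FRAC. -/
theorem holRep_of_fracHol (X : Model) (hF : FracHolStatement X) : HolRepStatement X := by
  intro m hm f _
  obtain ⟨r, s, hs0, ⟨R, hR⟩, ⟨S, hS⟩, hfs⟩ := hF f
  refine ⟨s, hs0, R * S ^ (m - 1), ?_⟩
  have h1 : f * s ^ m = r * s ^ (m - 1) := by
    obtain ⟨k, rfl⟩ : ∃ k, m = k + 1 := ⟨m - 1, by omega⟩
    rw [pow_succ', ← mul_assoc, hfs]
    simp
  rw [h1]
  have := hR.mul (laurentRel_pow hS (m - 1))
  simpa using this

section Indep

variable {X : Model} {m : ℕ}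

theorem coe_ne_zero {f : ↥X.F} (hf : f ≠ 0) : ((f : ↥X.F) : LaurentSeries ℂ) ≠ 0 :=
  fun h0 => hf (Subtype.ext h0)

/-- Multiplying by the `m`-th power of a holomorphic invariant function does not change the
Kummer character. -/
theorem isKummerCharOf_mul_pow (hGROW : InvariantGrowthStatement X) {f : LaurentSeries ℂ}
    {χ : Char0 X} (h : IsKummerCharOf X m f χ) {a : ↥X.F} (ha : IsHol (a : LaurentSeries ℂ)) :
    IsKummerCharOf X m (f * (a : LaurentSeries ℂ) ^ m) χ := by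
  obtain ⟨g, hgmd, hgrel, hgχ⟩ := h
  obtain ⟨A, hA⟩ := ha
  obtain ⟨hAinv, -⟩ := hGROW a A hA
  refine ⟨g * A, hgmd.mul hA.mdifferentiable, ?_, ?_⟩
  · rw [mul_pow]
    exact hgrel.mul (laurentRel_pow hA m)
  · intro γ z
    rw [Pi.mul_apply, Pi.mul_apply, hgχ, hAinv, mul_assoc]

/-- **Independence**: if `f' = f t ^ m` then `f` and `f'` have the same Kummer character. -/
theorem kummerChar_indep (hm : 0 < m) (hFRAC : FracHolStatement X)
    (hGROW : InvariantGrowthStatement X) (hUNIQ : KummerUniqueStatement X)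
    {f f' t : ↥X.F} (hf : f ≠ 0) (ht : t ≠ 0) (hff' : f' = f * t ^ m) {χ χ' : Char0 X}
    (h : IsKummerCharOf X m (f : LaurentSeries ℂ) χ)
    (h' : IsKummerCharOf X m (f' : LaurentSeries ℂ) χ') : χ = χ' := by
  obtain ⟨a, b, hb0, ha, hb, htb⟩ := hFRAC t
  have ha0 : a ≠ 0 := by
    rw [← htb]
    exact mul_ne_zero ht hb0
  have h1 := isKummerCharOf_mul_pow hGROW h ha
  have h2 := isKummerCharOf_mul_pow hGROW h' hb
  have h3 : (f' : LaurentSeries ℂ) * (b : LaurentSeries ℂ) ^ m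
      = (f : LaurentSeries ℂ) * (a : LaurentSeries ℂ) ^ m := by
    have : f' * b ^ m = f * a ^ m := by
      rw [hff', ← htb, mul_pow]
      ring
    have := congrArg (fun y : ↥X.F => (y : LaurentSeries ℂ)) this
    simpa using this
  rw [h3] at h2
  have h4 : (f : LaurentSeries ℂ) * (a : LaurentSeries ℂ) ^ m ≠ 0 :=
    mul_ne_zero (coe_ne_zero hf) (pow_ne_zero _ (coe_ne_zero ha0))
  exact hUNIQ m hm _ h4 χ χ' h1 h2

end Indep

/-- The relation "`χ` is the Kummer character of the class of `u`". -/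
def KummerRel (X : Model) (m : ℕ) (u : (↥X.F)ˣ) (χ : Char0 X) : Prop :=
  ∃ s : ↥X.F, s ≠ 0 ∧
    IsKummerCharOf X m ((((u : ↥X.F) * s ^ m : ↥X.F) : ↥X.F) : LaurentSeries ℂ) χ

section Rel

variable {X : Model} {m : ℕ}

theorem kummerRel_exists (hm : 0 < m) (hHOL : HolRepStatement X) (hEX : KummerExistsStatement X)
    (u : ↥(divisibleUnits X m)) :
    ∃ χ : Char0 X, χ ∈ kummerChars X m ∧ KummerRel X m (u : (↥X.F)ˣ) χ := by
  obtain ⟨s, hs0, hhol⟩ := hHOL m hm ((u : (↥X.F)ˣ) : ↥X.F) (Units.ne_zero _)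
  have hdiv : IsDivisible X m (((u : (↥X.F)ˣ) : ↥X.F) * s ^ m) := by
    refine ⟨mul_ne_zero (Units.ne_zero _) (pow_ne_zero _ hs0), fun P => ?_⟩
    rw [Place.ord_mul P (Units.ne_zero _) (pow_ne_zero _ hs0)]
    refine dvd_add (u.2 P) ?_
    have : P.ord (s ^ m) = (m : ℤ) * P.ord s := by
      have := P.ord_zpow s (m : ℤ)
      rwa [zpow_natCast] at this
    rw [this]
    exact dvd_mul_right _ _
  obtain ⟨χ, hχ, hchar⟩ := hEX m hm _ hdiv hhol
  exact ⟨χ, hχ, s, hs0, hchar⟩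

theorem kummerRel_unique (hm : 0 < m) (hFRAC : FracHolStatement X)
    (hGROW : InvariantGrowthStatement X) (hUNIQ : KummerUniqueStatement X)
    {u : (↥X.F)ˣ} {χ χ' : Char0 X} (h : KummerRel X m u χ) (h' : KummerRel X m u χ') :
    χ = χ' := by
  obtain ⟨s, hs0, hs⟩ := h
  obtain ⟨s', hs0', hs'⟩ := h'
  refine kummerChar_indep hm hFRAC hGROW hUNIQ (f := (u : ↥X.F) * s ^ m)
    (f' := (u : ↥X.F) * s' ^ m) (t := s' / s)
    (mul_ne_zero (Units.ne_zero _) (pow_ne_zero _ hs0)) (div_ne_zero hs0' hs0) ?_ hs hs'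
  rw [div_pow]
  field_simp

theorem kummerRel_mul {u v : (↥X.F)ˣ} {χ χ' : Char0 X} (h : KummerRel X m u χ)
    (h' : KummerRel X m v χ') : KummerRel X m (u * v) (χ * χ') := by
  obtain ⟨s, hs0, g, hgmd, hgrel, hgχ⟩ := h
  obtain ⟨s', hs0', g', hgmd', hgrel', hgχ'⟩ := h'
  refine ⟨s * s', mul_ne_zero hs0 hs0', g * g', hgmd.mul hgmd', ?_, ?_⟩
  · have h1 := hgrel.mul hgrel'
    rw [mul_pow]
    have h2 : ((((u * v : (↥X.F)ˣ) : ↥X.F) * (s * s') ^ m : ↥X.F) : LaurentSeries ℂ)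
        = ((((u : ↥X.F) * s ^ m : ↥X.F) : ↥X.F) : LaurentSeries ℂ)
          * ((((v : ↥X.F) * s' ^ m : ↥X.F) : ↥X.F) : LaurentSeries ℂ) := by
      rw [← MulMemClass.coe_mul]
      congr 1
      rw [Units.val_mul, mul_pow]
      ring
    rw [h2]
    exact h1
  · intro γ z
    rw [Pi.mul_apply, Pi.mul_apply, hgχ, hgχ', MonoidHom.mul_apply, Units.val_mul]
    ring

theorem kummerRel_of_hol (hm : 0 < m) (hFRAC : FracHolStatement X)
    (hGROW : InvariantGrowthStatement X) (hUNIQ : KummerUniqueStatement X)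
    (hEX : KummerExistsStatement X) {u : ↥(divisibleUnits X m)} {χ : Char0 X}
    (h : KummerRel X m (u : (↥X.F)ˣ) χ)
    (hhol : IsHol ((((u : (↥X.F)ˣ) : ↥X.F) : ↥X.F) : LaurentSeries ℂ)) :
    IsKummerCharOf X m ((((u : (↥X.F)ˣ) : ↥X.F) : ↥X.F) : LaurentSeries ℂ) χ := by
  have hdiv : IsDivisible X m ((u : (↥X.F)ˣ) : ↥X.F) := ⟨Units.ne_zero _, u.2⟩
  obtain ⟨χ', -, hchar'⟩ := hEX m hm _ hdiv hhol
  have h' : KummerRel X m (u : (↥X.F)ˣ) χ' :=
    ⟨1, one_ne_zero, by simpa using hchar'⟩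
  rw [kummerRel_unique hm hFRAC hGROW hUNIQ h h']
  exact hchar'

theorem kummerRel_one_iff (hm : 0 < m) (hFRAC : FracHolStatement X)
    (hGROW : InvariantGrowthStatement X)
    (hKER : KummerKernelStatement X) {u : (↥X.F)ˣ} :
    KummerRel X m u 1 ↔ ∃ x : (↥X.F)ˣ, x ^ m = u := by
  constructor
  · rintro ⟨s, hs0, hs⟩
    obtain ⟨y, hy⟩ := hKER m hm _ (mul_ne_zero (Units.ne_zero _) (pow_ne_zero _ hs0)) hs
    have hy0 : y ≠ 0 := by
      rintro rfl
      rw [zero_pow hm.ne'] at hy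
      exact mul_ne_zero (Units.ne_zero u) (pow_ne_zero m hs0) hy.symm
    refine ⟨Units.mk0 (y / s) (div_ne_zero hy0 hs0), Units.ext ?_⟩
    rw [Units.val_pow_eq_pow_val, Units.val_mk0, div_pow, hy]
    field_simp
  · rintro ⟨x, rfl⟩
    -- `x = a / b` with `a`, `b` holomorphic; the class of `x ^ m` is that of `a ^ m`
    obtain ⟨a, b, hb0, ha, hb, hxb⟩ := hFRAC (x : ↥X.F)
    obtain ⟨A, hA⟩ := ha
    obtain ⟨hAinv, -⟩ := hGROW a A hA
    refine ⟨b, hb0, A, hA.mdifferentiable, ?_, ?_⟩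
    · have h1 : ((x ^ m : (↥X.F)ˣ) : ↥X.F) * b ^ m = a ^ m := by
        rw [Units.val_pow_eq_pow_val, ← mul_pow, hxb]
      rw [h1]
      have := laurentRel_pow hA m
      simpa using this
    · intro γ z
      rw [hAinv]
      simp

end Rel

/-- **ES-A MAIN** from its parts. -/
theorem kummerMap_of_parts (X : Model)
    (hFRAC : FracHolStatement X) (hGROW : InvariantGrowthStatement X)
    (hEX : KummerExistsStatement X) (hUNIQ : KummerUniqueStatement X)
    (hKER : KummerKernelStatement X) (hSURJ : KummerSurjStatement X) :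
    KummerMapStatement X := by
  intro m hm
  have hHOL := holRep_of_fracHol X hFRAC
  choose κ hκmem hκrel using fun u : ↥(divisibleUnits X m) => kummerRel_exists hm hHOL hEX u
  have huniq : ∀ (u : ↥(divisibleUnits X m)) (χ : Char0 X),
      KummerRel X m (u : (↥X.F)ˣ) χ → χ = κ u :=
    fun u χ h => kummerRel_unique hm hFRAC hGROW hUNIQ h (hκrel u)
  let κ' : ↥(divisibleUnits X m) →* ↥(kummerChars X m) :=
    MonoidHom.mk' (fun u => ⟨κ u, hκmem u⟩) (by
      intro u v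
      apply Subtype.ext
      show κ (u * v) = κ u * κ v
      exact (huniq (u * v) _ (kummerRel_mul (hκrel u) (hκrel v))).symm)
  refine ⟨κ', ?_, ?_, ?_⟩
  · -- surjectivity
    rintro ⟨χ, hχ⟩
    obtain ⟨f, ⟨hf0, hfdiv⟩, hchar⟩ := hSURJ m hm χ hχ
    refine ⟨⟨Units.mk0 f hf0, fun P => by simpa using hfdiv P⟩, Subtype.ext ?_⟩
    show κ _ = χ
    refine (huniq _ χ ⟨1, one_ne_zero, ?_⟩).symm
    simpa using hchar
  · -- kernel
    intro u
    have h1 : κ' u = 1 ↔ κ u = 1 := by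
      constructor
      · intro h
        exact congrArg Subtype.val h
      · intro h
        exact Subtype.ext h
    rw [h1, ← kummerRel_one_iff hm hFRAC hGROW hKER]
    constructor
    · intro h
      rw [← h]
      exact hκrel u
    · intro h
      exact (huniq u 1 h).symm
  · -- holomorphic representatives
    intro u hhol
    exact kummerRel_of_hol hm hFRAC hGROW hUNIQ hEX (hκrel u) hhol

end Fermat.Agent.H95.ES1A

end
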