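/-
P-ES1 / ES1-A, row ES1A-KUM (helper95): GENERIC form (arbitrary model `X = (Γ, F, R, j)`) of
helper94's Kummer assemblies `Fermat.Agent.H94.EsA.Assembly{Basic,Ex,Ker,Map}`.
Mechanical port: `Gamma0 N ↦ X.Γ`, `FC N ↦ X.F`; the facts about `Γ₀(N)` used in the proofs
are replaced by `-1 ∈ X.Γ` (field `neg_one_mem` of `Model.IsModular`).
The group-free lemmas of the old closure are used verbatim from `Fermat.Agent.H94.EsA`.
-/
import Fermat.Agent.H23.ES1A.Basic
import Fermat.Agent.H94.EsA.AssemblyMap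

set_option autoImplicit false

noncomputable section

open UpperHalfPlane AlgebraicCurve Function
open scoped MatrixGroups Manifold Topology

namespace Fermat.Agent.H95.ES1A

open Fermat.Agent.H23.ES1A
open Fermat.Agent.H44 (LaurentRel)
open Fermat.Agent.H94.EsA (IsHol HasModerateGrowth rep_ne_zero ne_zero_of_rep
  abs_le_two_iff_sq_le abs_lt_two_iff_sq_lt abs_eq_two_iff_sq_eq growth_root mdiff_comp_smul
  comp_smul_ne_zero laurentRel_pow hasModerateGrowth_root hasModerateGrowth_pow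
  trace_conj_T_zpow)
open Fermat.Agent.H23.EsA (cuspOrd GrowthAtInfty MultiplierCharStatement PowOrderStatement
  CuspRootStatement EllipticFixStatement ParabolicFormStatement CuspPowStatement
  FixTraceStatement)

theorem trZ_eq {X : Model} (γ : ↥X.Γ) :
    trZ γ = (γ : SL(2, ℤ)) 0 0 + (γ : SL(2, ℤ)) 1 1 := by
  rw [trZ, Matrix.trace_fin_two]

/-- The two definitions of "parabolic-elliptic trivial" agree. -/
theorem isParEllTrivialSq_iff {X : Model} (χ : Char0 X) :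
    IsParEllTrivialSq χ ↔ IsParEllTrivial X χ := by
  constructor
  · intro h γ hγ
    exact h γ (by rw [trZ_eq]; exact (abs_le_two_iff_sq_le _).mp hγ)
  · intro h γ hγ
    exact h γ (by rw [trZ_eq] at hγ; exact (abs_le_two_iff_sq_le _).mpr hγ)

/-- The value of a character at `-1` is `1` as soon as a nonzero function transforms by it. -/
theorem char_neg_one {X : Model} (hneg : (-1 : SL(2, ℤ)) ∈ X.Γ) {χ : Char0 X} {G : ℍ → ℂ}
    (hG0 : G ≠ 0)
    (hχ : ∀ (γ : ↥X.Γ) (z : ℍ),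
      G ((γ : SL(2, ℤ)) • z) = ((χ γ : ℂˣ) : ℂ) * G z) :
    χ ⟨-1, hneg⟩ = 1 := by
  obtain ⟨z, hz⟩ : ∃ z, G z ≠ 0 := by
    by_contra hcon
    push Not at hcon
    exact hG0 (funext hcon)
  have h1 := hχ ⟨-1, hneg⟩ z
  have h2 : ((-1 : SL(2, ℤ)) • z) = z := by
    simp
  simp only [h2] at h1
  have h3 : ((χ ⟨-1, hneg⟩ : ℂˣ) : ℂ) = 1 := by
    have : (((χ ⟨-1, hneg⟩ : ℂˣ) : ℂ) - 1) * G z = 0 := by
      rw [sub_mul, one_mul, ← h1, sub_self]
    rcases mul_eq_zero.mp this with h | h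
    · exact sub_eq_zero.mp h
    · exact absurd h hz
  exact Units.ext h3

/-- **A-EX** from its parts. -/
theorem kummerExists_of_parts (X : Model) (hX : X.IsModular)
    (hROOT : Fermat.Agent.H23.EsA.RootStatement)
    (hCHAR : CharOfRootStatementK X)
    (hGROW : InvariantGrowthStatement X)
    (hPL : PlacesStatement X)
    (hMULT : MultiplierCharStatement)
    (hPOW : PowOrderStatement)
    (hCUSP : CuspRootStatement)
    (hELL : EllipticFixStatement)
    (hPAR : ParabolicFormStatement) :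
    KummerExistsStatement X := by
  intro m hm f hdiv hhol
  obtain ⟨hf0, hord⟩ := hdiv
  obtain ⟨h, hrel⟩ := hhol
  have hmd : MDiff h := hrel.mdifferentiable
  have hfc0 : ((f : ↥X.F) : LaurentSeries ℂ) ≠ 0 := fun h0 => hf0 (Subtype.ext h0)
  have hh0 : h ≠ 0 := rep_ne_zero hrel hfc0
  obtain ⟨hinv, hgrow⟩ := hGROW f h hrel
  have hmZ : (0 : ℤ) < (m : ℤ) := by exact_mod_cast hm
  -- orders of `h` are divisible by `m`
  have hordh : ∀ z₀ : ℍ, ∃ k : ℕ,
      meromorphicOrderAt (h ∘ ofComplex) (z₀ : ℂ) = (((m * k : ℕ) : ℤ) : WithTop ℤ) := by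
    intro z₀
    obtain ⟨v, s, hs, hv, -⟩ := hPL.1 z₀
    obtain ⟨k, hk⟩ := hord v
    have h1 := hv f h hf0 hrel
    obtain ⟨n, hn, -⟩ := hPOW 1 h hmd hh0 z₀
    rw [hn] at h1
    have h2 : (n : ℤ) = (s : ℤ) * v.ord f := by exact_mod_cast h1
    rw [hk] at h2
    have hsZ : (0 : ℤ) < (s : ℤ) := by exact_mod_cast hs
    have hk0 : 0 ≤ k := by
      by_contra hneg
      push Not at hneg
      have : (s : ℤ) * ((m : ℤ) * k) < 0 :=
        mul_neg_of_pos_of_neg hsZ (mul_neg_of_pos_of_neg hmZ hneg)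
      have hn0 : (0 : ℤ) ≤ (n : ℤ) := Int.natCast_nonneg n
      linarith
    refine ⟨s * k.toNat, ?_⟩
    rw [hn]
    congr 1
    rw [h2]
    push_cast
    rw [Int.toNat_of_nonneg hk0]
    ring
  -- the root
  obtain ⟨G, hGmd, hGpow⟩ := hROOT m hm h hmd hordh
  have hGz : ∀ z, G z ^ m = h z := fun z => by
    have := congrFun hGpow z
    simpa using this
  have hG0 : G ≠ 0 := by
    rintro rfl
    apply hh0
    rw [← hGpow]
    funext z
    simp [zero_pow hm.ne']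
  -- the character
  obtain ⟨χ, hχm, hχ⟩ := hCHAR m hm G hGmd hG0 (fun γ z => by
    rw [hGz, hGz]; exact hinv γ z)
  refine ⟨χ, ⟨?_, hχm⟩, G, hGmd, by rw [hGpow]; exact hrel, hχ⟩
  -- triviality on elliptic and parabolic elements
  intro γ hγ
  rw [trZ_eq] at hγ
  rcases lt_or_eq_of_le hγ with hlt | heq
  · -- elliptic case
    obtain ⟨z₀, hz₀⟩ := hELL (γ : SL(2, ℤ)) ((abs_lt_two_iff_sq_lt _).mpr hlt)
    obtain ⟨n, hn, hnm⟩ := hPOW m G hGmd hG0 z₀
    obtain ⟨v, s, hs, hv, hmult⟩ := hPL.1 z₀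
    obtain ⟨k, hk⟩ := hord v
    have h1 := hv f h hf0 hrel
    rw [← hGpow, hnm] at h1
    have h2 : ((m * n : ℕ) : ℤ) = (s : ℤ) * v.ord f := by exact_mod_cast h1
    rw [hk] at h2
    have h3 : (n : ℤ) = (s : ℤ) * k := by
      have : (m : ℤ) * (n : ℤ) = (m : ℤ) * ((s : ℤ) * k) := by
        push_cast at h2
        rw [h2]; ring
      exact mul_left_cancel₀ hmZ.ne' this
    have hsZ : (0 : ℤ) < (s : ℤ) := by exact_mod_cast hs
    have hk0 : 0 ≤ k := by
      by_contra hneg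
      push Not at hneg
      have : (s : ℤ) * k < 0 := mul_neg_of_pos_of_neg hsZ hneg
      have hn0 : (0 : ℤ) ≤ (n : ℤ) := Int.natCast_nonneg n
      linarith
    have h4 : n = s * k.toNat := by
      have : (n : ℤ) = ((s * k.toNat : ℕ) : ℤ) := by
        push_cast
        rw [Int.toNat_of_nonneg hk0, h3]
      exact_mod_cast this
    have h5 := hMULT G hGmd (γ : SL(2, ℤ)) z₀ hz₀ ((χ γ : ℂˣ) : ℂ) (fun z => hχ γ z) n hn
    have h6 : (denom (γ : SL(2, ℤ)) z₀ ^ 2) ^ n = 1 := by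
      rw [h4, pow_mul, hmult (γ : SL(2, ℤ)) γ.2 hz₀, one_pow]
    rw [h6, mul_one] at h5
    exact Units.ext h5
  · -- parabolic case
    obtain ⟨δ, k, hk⟩ := hPAR (γ : SL(2, ℤ)) ((abs_eq_two_iff_sq_eq _).mpr heq)
    obtain ⟨v, w, hw, hwk, hcusp⟩ := hPL.2.1 δ
    -- the conjugate lies in `Γ₀(N)`
    have hmem : δ * ModularGroup.T ^ k * δ⁻¹ ∈ X.Γ := by
      rcases hk with hk | hk
      · rw [← hk]; exact γ.2
      · have h1 : δ * ModularGroup.T ^ k * δ⁻¹ = (-1 : SL(2, ℤ)) * (γ : SL(2, ℤ)) := by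
          rw [hk]; simp
        rw [h1]
        exact (X.Γ).mul_mem (hX.neg_one_mem) γ.2
    obtain ⟨t, ht⟩ := (hwk k).mp hmem
    have hmemw : δ * ModularGroup.T ^ (w : ℤ) * δ⁻¹ ∈ X.Γ :=
      (hwk w).mpr dvd_rfl
    set γw : ↥X.Γ := ⟨δ * ModularGroup.T ^ (w : ℤ) * δ⁻¹, hmemw⟩
      with hγw
    -- the function `H = G ∘ δ`
    have hHmd : MDiff (fun z : ℍ => G (δ • z)) := mdiff_comp_smul hGmd δ
    have hH0 : (fun z : ℍ => G (δ • z)) ≠ 0 := comp_smul_ne_zero hG0 δ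
    have hHgrow : GrowthAtInfty (fun z : ℍ => G (δ • z)) := by
      obtain ⟨M, C, Y, -, hb⟩ := hgrow δ
      exact ⟨M, max C 1, Y, growth_root (G := fun z => G (δ • z)) (h := fun z => h (δ • z)) hm
        (fun z => hGz _) hb⟩
    have hζm : (((χ γw : ℂˣ) : ℂ)) ^ m = 1 := by
      have := congrArg (fun ψ : Char0 X => ((ψ γw : ℂˣ) : ℂ)) hχm
      simpa using this
    have hHT : ∀ z : ℍ, (fun z : ℍ => G (δ • z)) (ModularGroup.T ^ w • z)
        = ((χ γw : ℂˣ) : ℂ) * (fun z : ℍ => G (δ • z)) z := by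
      intro z
      have h1 := hχ γw (δ • z)
      have h2 : ((γw : ↥X.Γ) : SL(2, ℤ)) • (δ • z)
          = δ • (ModularGroup.T ^ w • z) := by
        show (δ * ModularGroup.T ^ (w : ℤ) * δ⁻¹) • (δ • z) = _
        rw [← mul_smul, inv_mul_cancel_right, mul_smul, zpow_natCast]
      rw [h2] at h1
      exact h1
    have hHpow : (fun z : ℍ => G (δ • z)) ^ m = fun z => h (δ • z) := by
      funext z
      exact hGz _
    obtain ⟨d, hd⟩ := hord v
    have hco : cuspOrd w ((fun z : ℍ => G (δ • z)) ^ m) = (((m : ℤ) * d : ℤ) : WithTop ℤ) := by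
      rw [hHpow, hcusp f h hf0 hrel, hd]
    have hζ1 := hCUSP m w hm hw (fun z : ℍ => G (δ • z)) hHmd hH0 hHgrow _ hζm hHT ⟨d, hco⟩
    have hχw : χ γw = 1 := Units.ext hζ1
    -- `δ T^k δ⁻¹ = γw ^ t`
    have hpow : (⟨δ * ModularGroup.T ^ k * δ⁻¹, hmem⟩ : ↥X.Γ)
        = γw ^ t := by
      apply Subtype.ext
      rw [Subgroup.coe_zpow]
      show δ * ModularGroup.T ^ k * δ⁻¹ = (δ * ModularGroup.T ^ (w : ℤ) * δ⁻¹) ^ t
      rw [ht, zpow_mul]
      have : ∀ (a : SL(2, ℤ)) (n : ℤ), δ * a ^ n * δ⁻¹ = (δ * a * δ⁻¹) ^ n := by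
        intro a n
        simp
      exact this _ _
    have hχ1 : χ ⟨δ * ModularGroup.T ^ k * δ⁻¹, hmem⟩ = 1 := by
      rw [hpow, map_zpow, hχw, one_zpow]
    rcases hk with hk | hk
    · have : γ = ⟨δ * ModularGroup.T ^ k * δ⁻¹, hmem⟩ := Subtype.ext hk
      rw [this, hχ1]
    · have : γ = ⟨-1, hX.neg_one_mem⟩ * ⟨δ * ModularGroup.T ^ k * δ⁻¹, hmem⟩ := by
        apply Subtype.ext
        show (γ : SL(2, ℤ)) = (-1 : SL(2, ℤ)) * (δ * ModularGroup.T ^ k * δ⁻¹)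
        rw [hk]; simp
      rw [this, map_mul, hχ1, mul_one]
      exact char_neg_one hX.neg_one_mem hG0 hχ

end Fermat.Agent.H95.ES1A

end
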